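import Mathlib
import Fermat.Agent.LT.T6.H865.TwEllSpec
import Fermat.Agent.LT.H129.CartanInv

/-!
# Row LT, tower T6, sub-leaf T6.13.3b.2 `LatSumC865` (registry row 1319) -- helper264, OFF-MAIN

`latSumC264 : Fermat.Agent.LT.T6.H865.LatSumC865` VERBATIM (Spec `LT/T6/H865/TwEllSpec.lean`,
helper865@cff3afd09, sha256 ce4fd7ce0a27): the sum of finitely many lattices `h_m 𝒪²` is a lattice
`x 𝒪²`.  Two lattices: Cartan decomposition `h₁⁻¹ h₂ = u diag(a, b) u'` (`cartan129` of helper129),
`x = h₁ u diag(a', b')` with `a' = 1` if `|a| ≤ 1` and `a' = a` otherwise; then induction on the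
number of lattices.  Neither completeness nor the residue field is used.
-/

set_option autoImplicit false

open Matrix

noncomputable section

namespace Fermat.Agent.LT.T6.H264

open Fermat.Agent.LT.T6 Fermat.Agent.LT.H129

variable {k : Type} [Field k] [Valued k Γ₀]

/-- A `2 × 2` matrix with integral entries. -/
def IntM264 (A : Matrix (Fin 2) (Fin 2) k) : Prop := ∀ a b, Valued.v (A a b) ≤ 1

theorem intM264_mul {A B : Matrix (Fin 2) (Fin 2) k} (hA : IntM264 A) (hB : IntM264 B) :
    IntM264 (A * B) := by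
  intro a b
  rw [Matrix.mul_apply, Fin.sum_univ_two]
  refine le_trans (Valuation.map_add _ _ _) (max_le ?_ ?_)
  · rw [map_mul]; exact mul_le_one' (hA a 0) (hB 0 b)
  · rw [map_mul]; exact mul_le_one' (hA a 1) (hB 1 b)

theorem intM264_one : IntM264 (1 : Matrix (Fin 2) (Fin 2) k) := by
  intro a b
  by_cases hab : a = b
  · subst hab; simp
  · simp [hab]

theorem intM264_of_isInt {g : GL (Fin 2) k} (hg : IsInt129 (vO129 k) g) :
    IntM264 (g : Matrix (Fin 2) (Fin 2) k) := fun a b => (mem_vO129 _).mp (hg a b)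

theorem intM264_diag {x y : k} (hx : Valued.v x ≤ 1) (hy : Valued.v y ≤ 1) :
    IntM264 (!![x, 0; 0, y] : Matrix (Fin 2) (Fin 2) k) := by
  intro a b
  fin_cases a <;> fin_cases b <;> simp [hx, hy]

/-- The larger of `1` and `a`. -/
def big264 (a : k) : k := by
  classical
  exact if Valued.v a ≤ 1 then 1 else a

theorem big264_ne_zero {a : k} (ha : a ≠ 0) : big264 a ≠ 0 := by
  unfold big264
  split_ifs
  · exact one_ne_zero
  · exact ha

theorem big264_inv_le (a : k) : Valued.v (big264 a)⁻¹ ≤ 1 := by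
  unfold big264
  split_ifs with h
  · simp
  · rw [map_inv₀]
    exact inv_le_one_of_one_le₀ (le_of_lt (not_le.mp h))

theorem big264_div_le (a : k) : Valued.v ((big264 a)⁻¹ * a) ≤ 1 := by
  unfold big264
  split_ifs with h
  · simpa using h
  · have ha : a ≠ 0 := by
      rintro rfl
      exact h (by simp)
    rw [inv_mul_cancel₀ ha, map_one]

/-- The coefficient of the first lattice. -/
def e264 (a : k) : k := by
  classical
  exact if Valued.v a ≤ 1 then 1 else 0

/-- The coefficient of the second lattice. -/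
def f264 (a : k) : k := by
  classical
  exact if Valued.v a ≤ 1 then 0 else 1

theorem e264_le (a : k) : Valued.v (e264 a) ≤ 1 := by
  unfold e264; split_ifs <;> simp

theorem f264_le (a : k) : Valued.v (f264 a) ≤ 1 := by
  unfold f264; split_ifs <;> simp

theorem big264_eq (a : k) : big264 a = e264 a + a * f264 a := by
  unfold big264 e264 f264; split_ifs <;> simp

/-- **Two lattices.** -/
theorem latSum_two264 (h₁ h₂ : GL (Fin 2) k) :
    ∃ (x : GL (Fin 2) k) (c₁ c₂ : Matrix (Fin 2) (Fin 2) k),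
      IntM264 ((x⁻¹ * h₁ : GL (Fin 2) k) : Matrix (Fin 2) (Fin 2) k) ∧
      IntM264 ((x⁻¹ * h₂ : GL (Fin 2) k) : Matrix (Fin 2) (Fin 2) k) ∧
      IntM264 c₁ ∧ IntM264 c₂ ∧
      (x : Matrix (Fin 2) (Fin 2) k)
        = (h₁ : Matrix (Fin 2) (Fin 2) k) * c₁ + (h₂ : Matrix (Fin 2) (Fin 2) k) * c₂ := by
  obtain ⟨u, u', a, b, ha, hb, hu, hu', -, hg⟩ := cartan129 (vO129 k) (h₁⁻¹ * h₂)
  have hh₂ : h₂ = h₁ * u * diag129 a b ha hb * u' := by
    have : h₂ = h₁ * (h₁⁻¹ * h₂) := by group
    rw [this, hg]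
    group
  set d : GL (Fin 2) k := diag129 (big264 a) (big264 b) (big264_ne_zero ha) (big264_ne_zero hb)
    with hd
  have hdinv : d⁻¹ = diag129 (big264 a)⁻¹ (big264 b)⁻¹ (inv_ne_zero (big264_ne_zero ha))
      (inv_ne_zero (big264_ne_zero hb)) := by
    rw [inv_eq_iff_mul_eq_one, hd, diag129_mul]
    apply ext_mat129
    simp [diag129, Matrix.one_fin_two, big264_ne_zero ha, big264_ne_zero hb]
  have hdinv_int : IntM264 ((d⁻¹ : GL (Fin 2) k) : Matrix (Fin 2) (Fin 2) k) := by
    rw [hdinv]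
    exact intM264_diag (big264_inv_le a) (big264_inv_le b)
  refine ⟨h₁ * u * d, (u : Matrix (Fin 2) (Fin 2) k) * !![e264 a, 0; 0, e264 b],
    ((u'⁻¹ : GL (Fin 2) k) : Matrix (Fin 2) (Fin 2) k) * !![f264 a, 0; 0, f264 b], ?_, ?_, ?_, ?_, ?_⟩
  · have : (h₁ * u * d)⁻¹ * h₁ = d⁻¹ * u⁻¹ := by group
    rw [this, Matrix.GeneralLinearGroup.coe_mul]
    exact intM264_mul hdinv_int (intM264_of_isInt hu.2)
  · have : (h₁ * u * d)⁻¹ * h₂ = d⁻¹ * diag129 a b ha hb * u' := by
      rw [hh₂]; group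
    rw [this, Matrix.GeneralLinearGroup.coe_mul]
    refine intM264_mul ?_ (intM264_of_isInt hu'.1)
    rw [hdinv, diag129_mul]
    exact intM264_diag (big264_div_le a) (big264_div_le b)
  · exact intM264_mul (intM264_of_isInt hu.1) (intM264_diag (e264_le a) (e264_le b))
  · exact intM264_mul (intM264_of_isInt hu'.2) (intM264_diag (f264_le a) (f264_le b))
  · have hu'c : (u' : Matrix (Fin 2) (Fin 2) k) * ((u'⁻¹ : GL (Fin 2) k) : Matrix (Fin 2) (Fin 2) k)
        = 1 := by
      rw [← Matrix.GeneralLinearGroup.coe_mul, mul_inv_cancel]; rfl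
    have hdm : (d : Matrix (Fin 2) (Fin 2) k)
        = !![e264 a, 0; 0, e264 b]
          + (diag129 a b ha hb : Matrix (Fin 2) (Fin 2) k) * !![f264 a, 0; 0, f264 b] := by
      rw [hd]
      simp only [diag129, coe_mkGL129]
      ext i j
      fin_cases i <;> fin_cases j <;> simp [big264_eq]
    rw [hh₂]
    simp only [Matrix.GeneralLinearGroup.coe_mul]
    rw [hdm]
    rw [Matrix.mul_add]
    congr 1
    · rw [Matrix.mul_assoc]
    · simp only [Matrix.mul_assoc]
      rw [← Matrix.mul_assoc (u' : Matrix (Fin 2) (Fin 2) k), hu'c, Matrix.one_mul]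

/-- **T6.13.3b.2 `LatSumC865`.**  A finite sum of lattices is a lattice. -/
theorem latSumC264 : H865.LatSumC865 := by
  intro k _ _ q _ n
  induction n with
  | zero =>
    intro h
    refine ⟨h 0, fun _ => 1, ?_, ?_, ?_⟩
    · intro m a b
      have hm : m = 0 := Fin.ext (by have := m.isLt; omega)
      subst hm
      rw [inv_mul_cancel]
      exact intM264_one a b
    · intro m a b
      exact intM264_one a b
    · simp
  | succ n ih =>
    intro h
    obtain ⟨x₀, c₀, hx₀, hc₀, hsum⟩ := ih (fun m => h (Fin.castSucc m))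
    obtain ⟨x, c₁, c₂, hi₁, hi₂, hc₁, hc₂, hx⟩ := latSum_two264 x₀ (h (Fin.last (n + 1)))
    set c : Fin (n + 1 + 1) → Matrix (Fin 2) (Fin 2) k :=
      Fin.snoc (α := fun _ => Matrix (Fin 2) (Fin 2) k) (fun m => c₀ m * c₁) c₂ with hc
    have hclast : c (Fin.last (n + 1)) = c₂ := by
      rw [hc]; exact Fin.snoc_last _ _
    have hccast : ∀ m' : Fin (n + 1), c (Fin.castSucc m') = c₀ m' * c₁ := by
      intro m'
      rw [hc]; exact Fin.snoc_castSucc (α := fun _ => Matrix (Fin 2) (Fin 2) k) _ _ _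
    refine ⟨x, c, ?_, ?_, ?_⟩
    · intro m
      refine Fin.lastCases ?_ (fun m' => ?_) m
      · exact hi₂
      · have : x⁻¹ * h (Fin.castSucc m') = (x⁻¹ * x₀) * (x₀⁻¹ * h (Fin.castSucc m')) := by group
        rw [this, Matrix.GeneralLinearGroup.coe_mul]
        exact intM264_mul hi₁ (hx₀ m')
    · intro m
      refine Fin.lastCases ?_ (fun m' => ?_) m
      · rw [hclast]; exact hc₂
      · rw [hccast]; exact intM264_mul (hc₀ m') hc₁
    · rw [Fin.sum_univ_castSucc, hclast]
      simp only [hccast]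
      rw [hx, hsum, Finset.sum_mul]
      congr 1
      refine Finset.sum_congr rfl (fun m _ => ?_)
      rw [Matrix.mul_assoc]

end Fermat.Agent.LT.T6.H264

end
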